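/-
S21 (Eichler–Shimura), analysis leaf A3 (helper32): periods of parabolic elements vanish, hence
the range of `periodHomPair` consists of parabolic homomorphisms.
-/
import Mathlib
import Fermat.Prelude.Def_ModularCurve_PeriodHomPair

set_option autoImplicit false

open UpperHalfPlane CongruenceSubgroup Filter Topology Function ModularCurve ModularCurve.Period
open scoped MatrixGroups

namespace Fermat.Agent.S21.H32

/-- A matrix of `SL(2, ℤ)` with trace `±2` is conjugate in `SL(2, ℤ)` to an upper triangular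
matrix. -/
lemma exists_conj_c_eq_zero (γ : SL(2, ℤ))
    (hγ : (γ : Matrix (Fin 2) (Fin 2) ℤ).trace ^ 2 = 4) :
    ∃ δ : SL(2, ℤ), (δ⁻¹ * γ * δ) 1 0 = 0 := by
  by_cases hc : γ 1 0 = 0
  · exact ⟨1, by simpa using hc⟩
  · have hdet : γ 0 0 * γ 1 1 - γ 0 1 * γ 1 0 = 1 := by
      have := γ.det_coe
      rwa [Matrix.det_fin_two] at this
    have htr : (γ 0 0 + γ 1 1) ^ 2 = 4 := by
      rwa [Matrix.trace_fin_two] at hγ
    have h2c : 2 * γ 1 0 ≠ 0 := mul_ne_zero two_ne_zero hc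
    have hgpos : 0 < Int.gcd (γ 0 0 - γ 1 1) (2 * γ 1 0) :=
      Int.gcd_pos_of_ne_zero_right _ h2c
    obtain ⟨p, q, hpq, hp, hq⟩ := Int.exists_gcd_one hgpos
    have hcop : IsCoprime p q := Int.isCoprime_iff_gcd_eq_one.mpr hpq
    have hrel : 2 * γ 1 0 * p + (γ 1 1 - γ 0 0) * q = 0 := by
      linear_combination p * hq - q * hp
    obtain ⟨δ, hδ0, hδ1⟩ := hcop.exists_SL2_col 0
    refine ⟨δ, ?_⟩
    have hform : (δ⁻¹ * γ * δ) 1 0 =
        -(δ 1 0) * (γ 0 0 * δ 0 0 + γ 0 1 * δ 1 0) + δ 0 0 * (γ 1 0 * δ 0 0 + γ 1 1 * δ 1 0) := by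
      have hinv : ((δ⁻¹ : SL(2, ℤ)) : Matrix (Fin 2) (Fin 2) ℤ) =
          !![δ 1 1, -δ 0 1; -δ 1 0, δ 0 0] := by
        rw [Matrix.SpecialLinearGroup.coe_inv, Matrix.adjugate_fin_two]
      show ((δ⁻¹ * γ * δ : SL(2, ℤ)) : Matrix (Fin 2) (Fin 2) ℤ) 1 0 = _
      rw [Matrix.SpecialLinearGroup.coe_mul, Matrix.SpecialLinearGroup.coe_mul, hinv,
        Matrix.mul_apply, Fin.sum_univ_two, Matrix.mul_apply, Fin.sum_univ_two,
        Matrix.mul_apply, Fin.sum_univ_two]
      simp only [Matrix.of_apply, Matrix.cons_val_zero, Matrix.cons_val_one,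
        Matrix.cons_val', Matrix.cons_val_fin_one]
      ring
    rw [hform, hδ0, hδ1]
    have h4 : 4 * γ 1 0 * (-q * (γ 0 0 * p + γ 0 1 * q) + p * (γ 1 0 * p + γ 1 1 * q)) = 0 := by
      linear_combination (2 * γ 1 0 * p + (γ 1 1 - γ 0 0) * q) * hrel - q ^ 2 * htr
        + 4 * q ^ 2 * hdet
    rcases mul_eq_zero.mp h4 with h | h
    · exact absurd h (mul_ne_zero four_ne_zero hc)
    · exact h

lemma tendsto_T_zpow_smul_atImInfty (n : ℤ) :
    Tendsto (fun w : ℍ => ModularGroup.T ^ n • w) atImInfty atImInfty := by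
  rw [atImInfty, tendsto_comap_iff]
  have : (im ∘ fun w : ℍ => ModularGroup.T ^ n • w) = im := by
    funext w
    show (ModularGroup.T ^ n • w).im = w.im
    rw [UpperHalfPlane.modular_T_zpow_smul, UpperHalfPlane.vadd_im]
  rw [this]
  exact tendsto_comap

variable {N : ℕ} {f : CuspForm (Gamma0 N) 2} {F : ℍ → ℂ}

/-- **A3, core.** The period of a parabolic element (trace `±2`) of `Γ₀(N)` vanishes. -/
theorem period_eq_zero_of_trace_sq (hF : HasEquivariantPrimitive N f F) (γ : Gamma0 N)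
    (hγ : ((γ : SL(2, ℤ)) : Matrix (Fin 2) (Fin 2) ℤ).trace ^ 2 = 4) :
    hF.2.2.1.period γ = 0 := by
  obtain ⟨δ, hδ⟩ := exists_conj_c_eq_zero (γ : SL(2, ℤ)) hγ
  obtain ⟨n, hn⟩ := ModularGroup.exists_eq_T_zpow_of_c_eq_zero hδ
  obtain ⟨L, hL⟩ := hF.2.2.2 δ
  have key : ∀ w : ℍ, F (δ • (ModularGroup.T ^ n • w)) - F (δ • w) = hF.2.2.1.period γ := by
    intro w
    rw [← hn w, ← hF.2.2.1.sub_eq_period γ (δ • w)]
    congr 2
    rw [← mul_smul, ← mul_smul]
    congr 1
    group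
  have h1 : Tendsto (fun w : ℍ => F (δ • (ModularGroup.T ^ n • w)) - F (δ • w)) atImInfty
      (𝓝 (L - L)) := (hL.comp (tendsto_T_zpow_smul_atImInfty n)).sub hL
  have h2 : Tendsto (fun _ : ℍ => hF.2.2.1.period γ) atImInfty (𝓝 (L - L)) :=
    h1.congr key
  have h3 := tendsto_nhds_unique h2 tendsto_const_nhds
  rw [sub_self] at h3
  exact h3.symm

/-- The period homomorphism of an equivariant primitive is parabolic. -/
theorem periodHom_mem_parabolicHoms (hF : HasEquivariantPrimitive N f F) :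
    hF.2.2.1.periodHom ∈ parabolicHoms ℂ (Gamma0 N) ℂ := by
  rw [mem_parabolicHoms_iff]
  intro γ hγ
  rw [IsEquivariantPrimitive.periodHom_apply]
  exact period_eq_zero_of_trace_sq hF γ hγ

/-- The period map takes values in the parabolic homomorphisms. -/
theorem periodMap_mem_parabolicHoms (N : ℕ) (f : CuspForm (Gamma0 N) 2) :
    periodMap N f ∈ parabolicHoms ℂ (Gamma0 N) ℂ := by
  classical
  by_cases h : ∃ F : ℍ → ℂ, HasEquivariantPrimitive N f F
  · obtain ⟨F, hF⟩ := h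
    obtain ⟨F₀, h₀, heq⟩ := periodMap_def N f hF
    rw [heq]
    exact periodHom_mem_parabolicHoms h₀
  · unfold periodMap
    rw [dif_neg h]
    exact Submodule.zero_mem _

/-- **A3.** The range of `periodHomPair` is contained in the parabolic homomorphisms. -/
theorem range_periodHomPair_le (N : ℕ) :
    LinearMap.range (periodHomPair N) ≤ parabolicHoms ℂ (Gamma0 N) ℂ := by
  rintro φ ⟨⟨f, g⟩, rfl⟩
  by_cases h : ExistsPeriodMapLinear N
  · obtain ⟨pml, hpml, heq⟩ := periodHomPair_def N h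
    rw [heq]
    have hf : pml f ∈ parabolicHoms ℂ (Gamma0 N) ℂ := by
      rw [hpml f]; exact periodMap_mem_parabolicHoms N f
    have hg : pml g ∈ parabolicHoms ℂ (Gamma0 N) ℂ := by
      rw [hpml g]; exact periodMap_mem_parabolicHoms N g
    simp only [LinearMap.coprod_apply, LinearMap.comp_apply, LinearMap.add_apply,
      LinearMap.sub_apply, LinearMap.id_apply]
    exact Submodule.add_mem _
      (Submodule.add_mem _ hf (charInvolution_mem_parabolicHoms N ℂ ℂ hf))
      (Submodule.sub_mem _ hg (charInvolution_mem_parabolicHoms N ℂ ℂ hg))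
  · unfold periodHomPair
    rw [dif_neg h]
    exact Submodule.zero_mem _

end Fermat.Agent.S21.H32
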