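/-
S21 (Eichler–Shimura), analysis leaf A4, rigidity core (helper32).

A holomorphic function on the upper half plane whose modulus is `Γ₀(N)`-invariant and all of whose
`SL(2, ℤ)`-translates are `N`-periodic and bounded at `i∞` is constant (maximum modulus principle
on the cusp-compactified fundamental domain).
-/
import Mathlib

set_option autoImplicit false

open UpperHalfPlane CongruenceSubgroup Filter Topology Function
open scoped MatrixGroups Manifold ModularForm Modular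

namespace Fermat.Agent.S21.H32

noncomputable section

/-- The translate `w ↦ G (δ • w)`. -/
def transl (G : ℍ → ℂ) (δ : SL(2, ℤ)) : ℍ → ℂ := fun w => G (δ • w)

lemma transl_apply (G : ℍ → ℂ) (δ : SL(2, ℤ)) (w : ℍ) : transl G δ w = G (δ • w) := rfl

lemma mdiff_transl {G : ℍ → ℂ} (hG : MDiff G) (δ : SL(2, ℤ)) : MDiff (transl G δ) := by
  have h2 : transl G δ = G ∣[(0 : ℤ)] δ := by
    ext w
    rw [ModularForm.SL_slash_apply]
    simp [transl]
  rw [h2, ModularForm.SL_slash]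
  exact hG.slash 0 _

lemma periodic_transl {N : ℕ} {G : ℍ → ℂ}
    (hper : ∀ δ : SL(2, ℤ), ∀ w : ℍ, G (δ • ((N : ℝ) +ᵥ w)) = G (δ • w)) (δ : SL(2, ℤ)) :
    Periodic (transl G δ ∘ ofComplex) (N : ℝ) := by
  intro w
  by_cases hw : 0 < w.im
  · have hw' : 0 < (w + ((N : ℝ) : ℂ)).im := by simpa using hw
    simp only [comp_apply, ofComplex_apply_of_im_pos hw', ofComplex_apply_of_im_pos hw, transl]
    rw [← hper δ ⟨w, hw⟩]
    congr 2
    ext
    simp [add_comm]
  · have hw0 : w.im ≤ 0 := not_lt.mp hw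
    have hw' : (w + ((N : ℝ) : ℂ)).im ≤ 0 := by simpa using hw0
    show transl G δ (ofComplex (w + ((N : ℝ) : ℂ))) = transl G δ (ofComplex w)
    rw [ofComplex_apply_eq_of_im_nonpos hw' hw0]

/-- Every point of `ℍ` is `Γ₀(N)`-equivalent to a point `(c.out)⁻¹ • w` with `w` in the standard
fundamental domain. -/
lemma exists_rep (N : ℕ) (z : ℍ) :
    ∃ (c : SL(2, ℤ) ⧸ Gamma0 N) (γ : SL(2, ℤ)) (w : ℍ),
      γ ∈ Gamma0 N ∧ w ∈ 𝒟 ∧ z = γ • ((c.out)⁻¹ • w) := by
  obtain ⟨g, hg⟩ := ModularGroup.exists_smul_mem_fd z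
  set c : SL(2, ℤ) ⧸ Gamma0 N := (g : SL(2, ℤ) ⧸ Gamma0 N) with hc
  have hmem : (c.out)⁻¹ * g ∈ Gamma0 N := by
    rw [← QuotientGroup.eq, QuotientGroup.out_eq']
  refine ⟨c, ((c.out)⁻¹ * g)⁻¹, g • z, inv_mem hmem, hg, ?_⟩
  rw [← mul_smul, ← mul_smul]
  have : ((c.out)⁻¹ * g)⁻¹ * (c.out)⁻¹ * g = 1 := by group
  rw [this, one_smul]

/-- **Maximum modulus on the modular curve.** A holomorphic function on `ℍ` whose modulus is
`Γ₀(N)`-invariant and all of whose `SL(2, ℤ)`-translates are `N`-periodic and bounded at `i∞`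
is constant. -/
theorem const_of_norm_invariant (N : ℕ) [NeZero N] (G : ℍ → ℂ) (hG : MDiff G)
    (hinv : ∀ γ ∈ Gamma0 N, ∀ z : ℍ, ‖G (γ • z)‖ = ‖G z‖)
    (hper : ∀ δ : SL(2, ℤ), ∀ w : ℍ, G (δ • ((N : ℝ) +ᵥ w)) = G (δ • w))
    (hbdd : ∀ δ : SL(2, ℤ), IsBoundedAtImInfty (transl G δ)) :
    ∃ c : ℂ, ∀ z, G z = c := by
  have hN : (0 : ℝ) < N := by exact_mod_cast NeZero.pos N
  -- the cusp functions of the translates
  have hdiff : ∀ δ, DifferentiableOn ℂ (cuspFunction N (transl G δ)) (Metric.ball 0 1) :=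
    fun δ => differentiableOn_cuspFunction_ball hN (periodic_transl hper δ) (mdiff_transl hG δ)
      (hbdd δ)
  have heq : ∀ δ (w : ℍ), cuspFunction N (transl G δ) (Periodic.qParam N w) = G (δ • w) :=
    fun δ w => eq_cuspFunction w hN.ne' (periodic_transl hper δ)
  have hval : ∀ δ (q : ℂ), q ≠ 0 → ∃ z : ℍ, cuspFunction N (transl G δ) q = G z := by
    intro δ q hq
    refine ⟨δ • ofComplex (Periodic.invQParam N q), ?_⟩
    rw [cuspFunction, Periodic.cuspFunction_eq_of_nonzero _ _ hq]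
    rfl
  -- the radius of the disc containing the image of the fundamental domain
  set r : ℝ := Real.exp (-Real.pi / N) with hr
  have hr1 : r < 1 := by
    rw [hr, Real.exp_lt_one_iff]
    exact div_neg_of_neg_of_pos (neg_lt_zero.mpr Real.pi_pos) hN
  have hr0 : 0 ≤ r := (Real.exp_pos _).le
  have hK : IsCompact (Metric.closedBall (0 : ℂ) r) := isCompact_closedBall 0 r
  have hsub : Metric.closedBall (0 : ℂ) r ⊆ Metric.ball 0 1 := Metric.closedBall_subset_ball hr1
  have hfd : ∀ w : ℍ, w ∈ 𝒟 → Periodic.qParam N w ∈ Metric.closedBall (0 : ℂ) r := by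
    intro w hw
    rw [mem_closedBall_zero_iff, Periodic.norm_qParam, hr]
    apply Real.exp_le_exp.mpr
    have h3 := ModularGroup.three_le_four_mul_im_sq_of_mem_fd hw
    have him : (1 : ℝ) / 2 ≤ w.im := by nlinarith [w.im_pos]
    rw [div_le_div_iff_of_pos_right hN]
    have : (w : ℂ).im = w.im := rfl
    rw [this]
    nlinarith [Real.pi_pos]
  -- maxima over the compact disc, then over the finitely many cosets
  let _ : Fintype (SL(2, ℤ) ⧸ Gamma0 N) := Fintype.ofFinite _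
  have hmax : ∀ c : SL(2, ℤ) ⧸ Gamma0 N, ∃ q ∈ Metric.closedBall (0 : ℂ) r,
      ∀ q' ∈ Metric.closedBall (0 : ℂ) r,
        ‖cuspFunction N (transl G (c.out)⁻¹) q'‖ ≤ ‖cuspFunction N (transl G (c.out)⁻¹) q‖ := by
    intro c
    have hcont : ContinuousOn (fun q => ‖cuspFunction N (transl G (c.out)⁻¹) q‖)
        (Metric.closedBall 0 r) := ((hdiff _).continuousOn.mono hsub).norm
    obtain ⟨q, hq, hqmax⟩ := hK.exists_isMaxOn ⟨0, by simp [hr0]⟩ hcont
    exact ⟨q, hq, fun q' hq' => hqmax hq'⟩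
  choose qmax hqmem hqmax using hmax
  obtain ⟨c0, -, hc0⟩ := Finset.exists_max_image Finset.univ
    (fun c : SL(2, ℤ) ⧸ Gamma0 N => ‖cuspFunction N (transl G (c.out)⁻¹) (qmax c)‖)
    ⟨((1 : SL(2, ℤ)) : SL(2, ℤ) ⧸ Gamma0 N), Finset.mem_univ _⟩
  -- the global bound on `ℍ`
  have hbound : ∀ z : ℍ, ‖G z‖ ≤ ‖cuspFunction N (transl G (c0.out)⁻¹) (qmax c0)‖ := by
    intro z
    obtain ⟨c, γ, w, hγ, hw, rfl⟩ := exists_rep N z
    rw [hinv γ hγ, ← heq]
    exact (hqmax c _ (hfd w hw)).trans (hc0 c (Finset.mem_univ _))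
  -- hence the cusp function attains its maximum over the unit disc at an interior point
  have hball : ∀ q ∈ Metric.ball (0 : ℂ) 1,
      ‖cuspFunction N (transl G (c0.out)⁻¹) q‖ ≤
        ‖cuspFunction N (transl G (c0.out)⁻¹) (qmax c0)‖ := by
    intro q hq
    by_cases hq0 : q = 0
    · subst hq0
      have hcont : ContinuousAt (cuspFunction N (transl G (c0.out)⁻¹)) 0 :=
        ((hdiff _).differentiableAt (Metric.ball_mem_nhds 0 one_pos)).continuousAt
      have htend : Tendsto (fun q => ‖cuspFunction N (transl G (c0.out)⁻¹) q‖) (𝓝[≠] 0)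
          (𝓝 ‖cuspFunction N (transl G (c0.out)⁻¹) 0‖) :=
        (hcont.tendsto.mono_left nhdsWithin_le_nhds).norm
      refine le_of_tendsto htend ?_
      filter_upwards [self_mem_nhdsWithin] with q hq
      obtain ⟨z, hz⟩ := hval (c0.out)⁻¹ q hq
      rw [hz]
      exact hbound z
    · obtain ⟨z, hz⟩ := hval (c0.out)⁻¹ q hq0
      rw [hz]
      exact hbound z
  have hconst := Complex.eqOn_of_isPreconnected_of_isMaxOn_norm
    (convex_ball (0 : ℂ) 1).isPreconnected Metric.isOpen_ball (hdiff (c0.out)⁻¹)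
    (hsub (hqmem c0)) (fun q hq => hball q hq)
  refine ⟨cuspFunction N (transl G (c0.out)⁻¹) (qmax c0), fun z => ?_⟩
  have hz : z = (c0.out)⁻¹ • (((c0.out)⁻¹)⁻¹ • z) := by simp
  rw [hz, ← heq (c0.out)⁻¹ (((c0.out)⁻¹)⁻¹ • z)]
  exact hconst (by simpa using Periodic.norm_qParam_lt_one hN (((c0.out)⁻¹)⁻¹ • z).im_pos)

/-- A holomorphic function `Φ` on `ℍ` such that `exp (a * Φ)` is constant (`a ≠ 0`) is constant. -/
lemma const_of_exp_const (Φ : ℍ → ℂ) (hΦ : MDiff Φ) (a c : ℂ) (ha : a ≠ 0)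
    (h : ∀ z, Complex.exp (a * Φ z) = c) : ∃ c' : ℂ, ∀ z, Φ z = c' := by
  have hφ : DifferentiableOn ℂ (Φ ∘ ofComplex) {z : ℂ | 0 < z.im} :=
    UpperHalfPlane.mdifferentiable_iff.mp hΦ
  have hderiv : Set.EqOn (deriv (Φ ∘ ofComplex)) 0 {z : ℂ | 0 < z.im} := by
    intro z hz
    have hd : HasDerivAt (Φ ∘ ofComplex) (deriv (Φ ∘ ofComplex) z) z :=
      (hφ.differentiableAt (isOpen_upperHalfPlaneSet.mem_nhds hz)).hasDerivAt
    have he : HasDerivAt (fun w => Complex.exp (a * (Φ ∘ ofComplex) w))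
        (Complex.exp (a * (Φ ∘ ofComplex) z) * (a * deriv (Φ ∘ ofComplex) z)) z :=
      (hd.const_mul a).cexp
    have hc : (fun _ : ℂ => c) =ᶠ[𝓝 z] fun w => Complex.exp (a * (Φ ∘ ofComplex) w) := by
      filter_upwards [isOpen_upperHalfPlaneSet.mem_nhds hz] with w _
      simp [h]
    have h0 := (he.congr_of_eventuallyEq hc).unique (hasDerivAt_const z c)
    have h1 : a * deriv (Φ ∘ ofComplex) z = 0 := by
      rcases mul_eq_zero.mp h0 with h2 | h2
      · exact absurd h2 (Complex.exp_ne_zero _)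
      · exact h2
    rcases mul_eq_zero.mp h1 with h2 | h2
    · exact absurd h2 ha
    · simpa using h2
  refine ⟨(Φ ∘ ofComplex) Complex.I, fun z => ?_⟩
  have := IsOpen.is_const_of_deriv_eq_zero isOpen_upperHalfPlaneSet
    (convex_halfSpace_im_gt 0).isPreconnected hφ hderiv (x := (z : ℂ)) (y := Complex.I)
    z.im_pos (by simp)
  simpa using this

/-- **Rigidity.** A holomorphic function `Φ` on `ℍ` such that `Φ ∘ γ - Φ` is real-valued for
`γ ∈ Γ₀(N)`, and such that every `SL(2, ℤ)`-translate of `Φ` is `N`-periodic with a limit at `i∞`,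
is constant. -/
theorem const_of_real_periods (N : ℕ) [NeZero N] (Φ : ℍ → ℂ) (hΦ : MDiff Φ)
    (hinv : ∀ γ ∈ Gamma0 N, ∀ z : ℍ, (Φ (γ • z) - Φ z).im = 0)
    (hper : ∀ δ : SL(2, ℤ), ∀ w : ℍ, Φ (δ • ((N : ℝ) +ᵥ w)) = Φ (δ • w))
    (hlim : ∀ δ : SL(2, ℤ), ∃ L : ℂ, Tendsto (fun w : ℍ => Φ (δ • w)) atImInfty (𝓝 L)) :
    ∃ c : ℂ, ∀ z, Φ z = c := by
  set G : ℍ → ℂ := fun z => Complex.exp (-Complex.I * Φ z) with hGdef
  have hG : MDiff G := by
    rw [UpperHalfPlane.mdifferentiable_iff]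
    have hφ : DifferentiableOn ℂ (Φ ∘ ofComplex) {z : ℂ | 0 < z.im} :=
      UpperHalfPlane.mdifferentiable_iff.mp hΦ
    exact (hφ.const_mul (-Complex.I)).cexp
  have hnorm : ∀ z, ‖G z‖ = Real.exp (Φ z).im := by
    intro z
    simp [hGdef, Complex.norm_exp]
  obtain ⟨c, hc⟩ := const_of_norm_invariant N G hG
    (fun γ hγ z => by
      rw [hnorm, hnorm]
      have := hinv γ hγ z
      rw [Complex.sub_im, sub_eq_zero] at this
      rw [this])
    (fun δ w => by simp only [hGdef]; rw [hper δ w])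
    (fun δ => by
      obtain ⟨L, hL⟩ := hlim δ
      have h1 : Tendsto (transl G δ) atImInfty (𝓝 (Complex.exp (-Complex.I * L))) := by
        have h2 : Continuous fun x : ℂ => Complex.exp (-Complex.I * x) := by fun_prop
        exact (h2.tendsto L).comp hL
      exact h1.isBigO_one ℝ)
  exact const_of_exp_const Φ hΦ (-Complex.I) c (by simp) hc

end

end Fermat.Agent.S21.H32
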