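/-
S21 (Eichler–Shimura), analysis leaf A4 (helper32): injectivity of `periodHomPair`.

If the period homomorphism `P` of an equivariant primitive `F` of a cusp form `f` satisfies
`ι P = ± P` (`ι` = conjugation by `diag(1, -1)`), then `f = 0`.  Indeed, with
`F̃ z = conj (F (-conj z))`, the holomorphic functions `F + F̃` and `F - F̃` have real resp. purely
imaginary period differences, so both are constant by the rigidity lemma; hence `F` is constant.
-/
import Mathlib
import Fermat.Prelude.Def_ModularCurve_PeriodHomPair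
import Fermat.Agent.S21.H32.Rigid
import Fermat.Agent.S21.H32.Parabolic

set_option autoImplicit false

open UpperHalfPlane CongruenceSubgroup Filter Topology Function ModularCurve ModularCurve.Period
open scoped MatrixGroups Manifold ModularForm ComplexConjugate

namespace Fermat.Agent.S21.H32

/-- The anti-holomorphic involution `z ↦ -conj z` intertwines `γ` and `jConjSL γ`. -/
lemma J_smul_smul (γ : SL(2, ℤ)) (z : ℍ) : J • (γ • z) = jConjSL γ • (J • z) := by
  ext
  rw [coe_J_smul, coe_specialLinearGroup_apply, coe_specialLinearGroup_apply, coe_J_smul]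
  have e00 : (jConjSL γ) 0 0 = γ 0 0 := by
    show ((jConjSL γ : SL(2, ℤ)) : Matrix (Fin 2) (Fin 2) ℤ) 0 0 = _
    rw [jConjSL_coe, jConjMat_apply_zero_zero]
  have e01 : (jConjSL γ) 0 1 = -γ 0 1 := by
    show ((jConjSL γ : SL(2, ℤ)) : Matrix (Fin 2) (Fin 2) ℤ) 0 1 = _
    rw [jConjSL_coe, jConjMat_apply_zero_one]
  have e10 : (jConjSL γ) 1 0 = -γ 1 0 := by
    show ((jConjSL γ : SL(2, ℤ)) : Matrix (Fin 2) (Fin 2) ℤ) 1 0 = _
    rw [jConjSL_coe, jConjMat_apply_one_zero]
  have e11 : (jConjSL γ) 1 1 = γ 1 1 := by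
    show ((jConjSL γ : SL(2, ℤ)) : Matrix (Fin 2) (Fin 2) ℤ) 1 1 = _
    rw [jConjSL_coe, jConjMat_apply_one_one]
  rw [e00, e01, e10, e11]
  simp only [algebraMap_int_eq, eq_intCast, Int.cast_neg, Complex.ofReal_neg, map_div₀, map_add,
    map_mul, Complex.conj_ofReal]
  rw [← neg_div]
  congr 1 <;> ring

lemma im_J_smul (z : ℍ) : (J • z).im = z.im := by
  have h := coe_J_smul z
  have h2 := congrArg Complex.im h
  simpa using h2

lemma tendsto_J_smul_atImInfty : Tendsto (fun w : ℍ => J • w) atImInfty atImInfty := by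
  rw [atImInfty, tendsto_comap_iff]
  have : (im ∘ fun w : ℍ => J • w) = im := by
    funext w
    exact im_J_smul w
  rw [this]
  exact tendsto_comap

lemma J_smul_vadd (x : ℝ) (w : ℍ) : J • (x +ᵥ w) = (-x) +ᵥ (J • w) := by
  ext
  rw [coe_J_smul, coe_vadd, coe_vadd, coe_J_smul]
  simp
  ring

/-- `F̃ z = conj (F (-conj z))`. -/
noncomputable def conjJ (F : ℍ → ℂ) : ℍ → ℂ := fun z => conj (F (J • z))

lemma conjJ_apply (F : ℍ → ℂ) (z : ℍ) : conjJ F z = conj (F (J • z)) := rfl

lemma mdiff_conjJ {F : ℍ → ℂ} (hF : MDiff F) : MDiff (conjJ F) := by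
  have h := hF.slash 0 J
  have h2 : F ∣[(0 : ℤ)] J = conjJ F := by
    ext τ
    simp [ModularForm.slash_apply, conjJ]
  rwa [h2] at h

variable {N : ℕ} {f : CuspForm (Gamma0 N) 2} {F : ℍ → ℂ}

lemma mdiff_of_primitive (hF : HasEquivariantPrimitive N f F) : MDiff F := by
  rw [UpperHalfPlane.mdifferentiable_iff]
  intro z hz
  exact ((hF.1 ⟨z, hz⟩).differentiableAt).differentiableWithinAt

/-- The period of `δ T^n δ⁻¹`-type elements vanishes. -/
lemma period_eq_zero_of_conj_T (hF : HasEquivariantPrimitive N f F) (δ : SL(2, ℤ)) (n : ℤ)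
    (γ : Gamma0 N)
    (hγ : ∀ w : ℍ, (γ : SL(2, ℤ)) • (δ • w) = δ • (ModularGroup.T ^ n • w)) :
    hF.2.2.1.period γ = 0 := by
  obtain ⟨L, hL⟩ := hF.2.2.2 δ
  have key : ∀ w : ℍ, F (δ • (ModularGroup.T ^ n • w)) - F (δ • w) = hF.2.2.1.period γ := by
    intro w
    rw [← hγ w, ← hF.2.2.1.sub_eq_period γ (δ • w)]
  have h1 : Tendsto (fun w : ℍ => F (δ • (ModularGroup.T ^ n • w)) - F (δ • w)) atImInfty
      (𝓝 (L - L)) := (hL.comp (tendsto_T_zpow_smul_atImInfty n)).sub hL
  have h2 : Tendsto (fun _ : ℍ => hF.2.2.1.period γ) atImInfty (𝓝 (L - L)) :=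
    h1.congr key
  have h3 := tendsto_nhds_unique h2 tendsto_const_nhds
  rw [sub_self] at h3
  exact h3.symm

lemma conj_T_pow_mem_Gamma0 (N : ℕ) (δ : SL(2, ℤ)) :
    δ * ModularGroup.T ^ (N : ℤ) * δ⁻¹ ∈ Gamma0 N := by
  have h1 : ModularGroup.T ^ (N : ℤ) ∈ Gamma N := by
    have := ModularGroup_T_pow_mem_Gamma (N : ℤ) (N : ℤ) dvd_rfl
    simpa using this
  have h2 : δ * ModularGroup.T ^ (N : ℤ) * δ⁻¹ ∈ Gamma N := (Gamma_normal N).conj_mem _ h1 δ
  rw [Gamma_mem] at h2
  rw [Gamma0_mem]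
  exact h2.2.2.1

/-- Every translate of an equivariant primitive is `N`-periodic. -/
lemma primitive_periodic (hF : HasEquivariantPrimitive N f F) (δ : SL(2, ℤ)) (w : ℍ) :
    F (δ • ((N : ℝ) +ᵥ w)) = F (δ • w) := by
  have hγ : ∀ w : ℍ, ((⟨_, conj_T_pow_mem_Gamma0 N δ⟩ : Gamma0 N) : SL(2, ℤ)) • (δ • w)
      = δ • (ModularGroup.T ^ (N : ℤ) • w) := by
    intro w
    rw [← mul_smul, ← mul_smul]
    congr 1
    group
  have h0 := period_eq_zero_of_conj_T hF δ (N : ℤ) ⟨_, conj_T_pow_mem_Gamma0 N δ⟩ hγ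
  have h1 := hF.2.2.1.sub_eq_period ⟨_, conj_T_pow_mem_Gamma0 N δ⟩ (δ • w)
  rw [h0, hγ w, sub_eq_zero, UpperHalfPlane.modular_T_zpow_smul] at h1
  simpa using h1

lemma primitive_periodic_neg (hF : HasEquivariantPrimitive N f F) (δ : SL(2, ℤ)) (w : ℍ) :
    F (δ • ((-(N : ℝ)) +ᵥ w)) = F (δ • w) := by
  have h := primitive_periodic hF δ ((-(N : ℝ)) +ᵥ w)
  rw [← h]
  congr 2
  ext
  simp

/-- How `F̃` transforms: `F̃ (γ • z) - F̃ z = conj (P (j γ j))`. -/
lemma conjJ_sub (hF : HasEquivariantPrimitive N f F) (γ : Gamma0 N) (z : ℍ) :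
    conjJ F ((γ : SL(2, ℤ)) • z) - conjJ F z = conj (hF.2.2.1.period (jConjGamma0 N γ)) := by
  rw [conjJ_apply, conjJ_apply, J_smul_smul, ← map_sub]
  congr 1
  exact hF.2.2.1.sub_eq_period (jConjGamma0 N γ) (J • z)

/-- **A4, core.** If the period homomorphism of an equivariant primitive of `f` is an eigenvector
of the involution `ι` (eigenvalue `±1`), then `f = 0`. -/
theorem eq_zero_of_periodHom_symm [NeZero N] (hF : HasEquivariantPrimitive N f F) (ε : ℝ)
    (hε : ε = 1 ∨ ε = -1)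
    (h : charInvolution N ℂ ℂ hF.2.2.1.periodHom = (ε : ℂ) • hF.2.2.1.periodHom) : f = 0 := by
  have hFd : MDiff F := mdiff_of_primitive hF
  have hFt : MDiff (conjJ F) := mdiff_conjJ hFd
  -- the transformation law of `F̃` in terms of `ε`
  have hper : ∀ (γ : Gamma0 N) (z : ℍ),
      conjJ F ((γ : SL(2, ℤ)) • z) - conjJ F z = (ε : ℂ) * conj (hF.2.2.1.period γ) := by
    intro γ z
    rw [conjJ_sub hF γ z]
    have h1 := congrArg (fun φ : Additive (Gamma0 N) →+ ℂ => φ (Additive.ofMul γ)) h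
    simp only [charInvolution_apply, IsEquivariantPrimitive.periodHom_apply, toMul_ofMul,
      AddMonoidHom.smul_apply, smul_eq_mul] at h1
    rw [h1, map_mul, Complex.conj_ofReal]
  -- periodicity and limits of the translates of `F̃`
  have hperT : ∀ (δ : SL(2, ℤ)) (w : ℍ), conjJ F (δ • ((N : ℝ) +ᵥ w)) = conjJ F (δ • w) := by
    intro δ w
    rw [conjJ_apply, conjJ_apply, J_smul_smul, J_smul_smul, J_smul_vadd,
      primitive_periodic_neg hF]
  have hlimT : ∀ δ : SL(2, ℤ), ∃ L : ℂ, Tendsto (fun w : ℍ => conjJ F (δ • w)) atImInfty (𝓝 L) := by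
    intro δ
    obtain ⟨L, hL⟩ := hF.2.2.2 (jConjSL δ)
    refine ⟨conj L, ?_⟩
    have h1 : Tendsto (fun w : ℍ => F (jConjSL δ • (J • w))) atImInfty (𝓝 L) :=
      hL.comp tendsto_J_smul_atImInfty
    have h2 := (Complex.continuous_conj.tendsto L).comp h1
    refine h2.congr (fun w => ?_)
    show conj (F (jConjSL δ • J • w)) = conjJ F (δ • w)
    rw [conjJ_apply, J_smul_smul]
  -- `F + s F̃` is constant for both signs `s`
  have hconst : ∀ s : ℝ, (s = 1 ∨ s = -1) → ∃ c : ℂ, ∀ z, F z + (s : ℂ) * conjJ F z = c := by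
    intro s hs
    have hΦ : MDiff (fun z => F z + (s : ℂ) * conjJ F z) := hFd.add (mdifferentiable_const.mul hFt)
    have hdiff : ∀ (γ : Gamma0 N) (z : ℍ),
        (F ((γ : SL(2, ℤ)) • z) + (s : ℂ) * conjJ F ((γ : SL(2, ℤ)) • z))
          - (F z + (s : ℂ) * conjJ F z)
          = hF.2.2.1.period γ + ((s * ε : ℝ) : ℂ) * conj (hF.2.2.1.period γ) := by
      intro γ z
      have h1 := hF.2.2.1.sub_eq_period γ z
      have h2 := hper γ z
      push_cast
      linear_combination h1 + (s : ℂ) * h2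
    have hperΦ : ∀ (δ : SL(2, ℤ)) (w : ℍ),
        F (δ • ((N : ℝ) +ᵥ w)) + (s : ℂ) * conjJ F (δ • ((N : ℝ) +ᵥ w))
          = F (δ • w) + (s : ℂ) * conjJ F (δ • w) := by
      intro δ w
      rw [primitive_periodic hF, hperT]
    have hlimΦ : ∀ δ : SL(2, ℤ), ∃ L : ℂ,
        Tendsto (fun w : ℍ => F (δ • w) + (s : ℂ) * conjJ F (δ • w)) atImInfty (𝓝 L) := by
      intro δ
      obtain ⟨L1, hL1⟩ := hF.2.2.2 δ
      obtain ⟨L2, hL2⟩ := hlimT δ
      exact ⟨L1 + (s : ℂ) * L2, hL1.add (hL2.const_mul _)⟩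
    have hsε : s * ε = 1 ∨ s * ε = -1 := by
      rcases hs with rfl | rfl <;> rcases hε with rfl | rfl <;> norm_num
    rcases hsε with hse | hse
    · -- real period differences
      refine const_of_real_periods N _ hΦ (fun γ hγ z => ?_) hperΦ hlimΦ
      have := hdiff ⟨γ, hγ⟩ z
      rw [this, hse]
      simp
    · -- purely imaginary period differences: multiply by `I`
      have hinvI : ∀ γ ∈ Gamma0 N, ∀ z : ℍ,
          (Complex.I * (F (γ • z) + (s : ℂ) * conjJ F (γ • z))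
            - Complex.I * (F z + (s : ℂ) * conjJ F z)).im = 0 := by
        intro γ hγ z
        have := hdiff ⟨γ, hγ⟩ z
        rw [← mul_sub, this, hse]
        simp
      obtain ⟨c, hc⟩ := const_of_real_periods N (fun z => Complex.I * (F z + (s : ℂ) * conjJ F z))
        (mdifferentiable_const.mul hΦ) hinvI
        (fun δ w => by rw [hperΦ δ w])
        (fun δ => by
          obtain ⟨L, hL⟩ := hlimΦ δ
          exact ⟨Complex.I * L, hL.const_mul _⟩)
      refine ⟨-Complex.I * c, fun z => ?_⟩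
      rw [← hc z, ← mul_assoc]
      simp
  obtain ⟨c1, hc1⟩ := hconst 1 (Or.inl rfl)
  obtain ⟨c2, hc2⟩ := hconst (-1) (Or.inr rfl)
  -- hence `F` is constant
  have hFc : ∀ z, F z = (c1 + c2) / 2 := by
    intro z
    have h1 := hc1 z
    have h2 := hc2 z
    push_cast at h1 h2
    linear_combination (1 / 2 : ℂ) * h1 + (1 / 2 : ℂ) * h2
  -- and so its derivative `f` vanishes
  ext τ
  have hd := hF.1 τ
  have hc : (F ∘ ofComplex) =ᶠ[𝓝 (τ : ℂ)] fun _ => (c1 + c2) / 2 :=
    Eventually.of_forall fun w => hFc _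
  have h0 := (hd.congr_of_eventuallyEq hc.symm).unique (hasDerivAt_const (τ : ℂ) ((c1 + c2) / 2))
  simpa using h0

/-- **A4.** `periodHomPair N` is injective, as soon as every cusp form has an equivariant primitive
and the period map is linear. -/
theorem periodHomPair_injective (N : ℕ) [NeZero N]
    (hex : ∀ f : CuspForm (Gamma0 N) 2, ∃ F : ℍ → ℂ, HasEquivariantPrimitive N f F)
    (hlin : ExistsPeriodMapLinear N) : Function.Injective (periodHomPair N) := by
  obtain ⟨pml, hpml, heq⟩ := periodHomPair_def N hlin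
  rw [← LinearMap.ker_eq_bot, LinearMap.ker_eq_bot']
  rintro ⟨f, g⟩ hfg
  rw [heq] at hfg
  simp only [LinearMap.coprod_apply, LinearMap.comp_apply, LinearMap.add_apply,
    LinearMap.sub_apply, LinearMap.id_apply] at hfg
  have hι : ∀ ψ : Additive (Gamma0 N) →+ ℂ,
      charInvolution N ℂ ℂ (charInvolution N ℂ ℂ ψ) = ψ := charInvolution_charInvolution N ℂ ℂ
  have h2 := congrArg (charInvolution N ℂ ℂ) hfg
  simp only [map_add, map_sub, hι, map_zero] at h2
  have hA : charInvolution N ℂ ℂ (pml f) = ((-1 : ℝ) : ℂ) • pml f := by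
    have h3 : (2 : ℂ) • (pml f + charInvolution N ℂ ℂ (pml f)) = 0 := by
      rw [two_smul]
      have := congrArg₂ (· + ·) hfg h2
      simp only [add_zero] at this
      rw [← this]
      abel
    have h4 : pml f + charInvolution N ℂ ℂ (pml f) = 0 := by
      rcases smul_eq_zero.mp h3 with h | h
      · exact absurd h two_ne_zero
      · exact h
    rw [eq_neg_of_add_eq_zero_right h4]
    simp
  have hB : charInvolution N ℂ ℂ (pml g) = ((1 : ℝ) : ℂ) • pml g := by
    have h3 : (2 : ℂ) • (pml g - charInvolution N ℂ ℂ (pml g)) = 0 := by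
      rw [two_smul]
      have := congrArg₂ (· - ·) hfg h2
      simp only [sub_zero] at this
      rw [← this]
      abel
    have h4 : pml g - charInvolution N ℂ ℂ (pml g) = 0 := by
      rcases smul_eq_zero.mp h3 with h | h
      · exact absurd h two_ne_zero
      · exact h
    rw [← sub_eq_zero.mp h4]
    simp
  have hf : f = 0 := by
    obtain ⟨F, hF⟩ := hex f
    obtain ⟨F₀, h₀, hp⟩ := periodMap_def N f hF
    refine eq_zero_of_periodHom_symm h₀ (-1) (Or.inr rfl) ?_
    rw [← hp, ← hpml f]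
    exact hA
  have hg : g = 0 := by
    obtain ⟨F, hF⟩ := hex g
    obtain ⟨F₀, h₀, hp⟩ := periodMap_def N g hF
    refine eq_zero_of_periodHom_symm h₀ 1 (Or.inl rfl) ?_
    rw [← hp, ← hpml g]
    exact hB
  rw [hf, hg]
  rfl

end Fermat.Agent.S21.H32
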